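/-
S44lib / Iface  (helper3, chief architect)  — Project LSq  (row 38 through S44)

Interface of the proof of S44: for a Frey package `P`, a conductor level `N` with `p ∣ N`
(`p = P.p ≥ 5`), irreducible `E[p]`, `P.ModularRepOfLevel N`  ⟹  `P.ModularRepOfLevel (N / p)`.
Everything here is a definition, a block STATEMENT, or the formal assembly (proved).

Notation: `J = JZero N = Pic⁰(FBar N)`, `A` a place of `ℚ̄` over `p`, `I = IA A`, `A0 = A^I`.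
The special fibre of the nodal model at `A` is `C₁ ∪ C₂`, `C_i ≅ X₀(N/p)_k`, glued at the
supersingular points `s`; `e_s ∈ {1,2,3}` the thickness of the annulus at `s`.

Blocks (owners as in #lead-188):
* `Q1Stmt`      (helper5)  `V ≤ J[p]`, `V ≅ E[p]` as `G_ℚ`-modules, `T_ℓ = a_ℓ(W)` on `V`.
* `NonEisStmt`  (helper5)  `E[p]` irreducible ⟹ some good `ℓ` has `a_ℓ(W) ≢ ℓ + 1 (mod p)`.
* `Q3Stmt`      (helper8)  Frey at `p ∣ abc`: `E[p]` is an extension of an `I`-trivial quotient by an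
                           `I`-stable subgroup `L` fixed pointwise by `I₁ = IOne A p` (inertia fixing `μ_p`), and
                           every `x ∈ E[p]` is rational over `K₁(w)`, `wᵖ` a unit of `A0` (peu ramifié, V-form).
* `PsiPackage`  (geometry) the map `Ψ : J[p] → Ω` ("dlog of the reductions of `f_x`", `p D = div f_x`)
                           with its residue map `res : Ω → R` (`R = 𝔽_p^{nodes}`), Hecke operators on `Ω`, `R`: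
     - Q2a (helper6)  `Ψ` additive, `I`-invariant, Hecke-equivariant, `ker Ψ` has no `I`-trivial subquotient
                      (`ker Ψ ≤ kumSub` + LSp (P3)/Conn);
     - Q2b (helper7, helper9, helper4)  **(M′)**, V-form: `x ∈ J[p]` rational over `K₁(w)` (`wᵖ` a unit of `A0`)
                      with `(σ - 1) x` fixed by `I₁` for all `σ ∈ I₁` ⟹ `res (Ψ x) ∈ Eis`
                      (`Eis = 𝔽_p · (1/e_s)_s`; break-one rigidity, #h5-M1 / #h7-77);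
     - Q4  (helper2)  `T_ℓ = ℓ + 1` on `Eis` (Brandt row sums);
     - Q5  (helper5)  a non-zero residue-free Hecke eigenvector of `Ω` (a pair of regular eigendifferentials on
                      `C₁, C₂`, i.e. a non-zero Hecke eigenclass in `Pic⁰(C_i)[p](k)`) comes from a normalized
                      eigenform of level `N / p`.
* `s44_of_stmts` : the assembly.
-/
import Mathlib
import Fermat.Statements.S44
import Fermat.Agent.S33lib.Iface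
import Fermat.Agent.S13lib.PlaceOpen
import Fermat.Prelude.Def_ModularCurve_HeckeModule

set_option autoImplicit false
set_option linter.unusedSectionVars false

noncomputable section

namespace Fermat.Agent.S44lib

open ModularCurve Fermat.Agent.S19lib Fermat.Agent.S33lib
open WeierstrassCurve WeierstrassCurve.Affine WeierstrassCurve.Affine.Point

local notation "Qb" => AlgebraicClosure ℚ
local notation "GQ" => (AlgebraicClosure ℚ ≃ₐ[ℚ] AlgebraicClosure ℚ)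
local notation "Zbar" => integralClosure ℤ ℂ

/-! ### basic objects -/

/-- `E[p]` of the Frey curve over `ℚ̄` (the module of the frozen `GaloisRepIsIrreducible`) -/
abbrev FreyTors (P : FreyPackage) : Type :=
  Submodule.torsionBy ℤ ((P.freyCurve : Affine ℚ)⁄Qb).Point P.p

/-- **the peu-ramifié subgroup** of the inertia group at `A` (residue characteristic `p`): the
`σ ∈ I_A` fixing every `p`-th root of every inertia-fixed unit (in particular `μ_p`). -/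
def UPeu (A : ValuationSubring Qb) (p : ℕ) : Subgroup GQ where
  carrier := {σ | σ ∈ IA A ∧ ∀ w : Qb, w ^ p ∈ A0 A → A.valuation (w ^ p) = 1 → σ w = w}
  mul_mem' := by
    rintro σ τ ⟨hσ, hσ'⟩ ⟨hτ, hτ'⟩
    refine ⟨(IA A).mul_mem hσ hτ, fun w h1 h2 => ?_⟩
    rw [AlgEquiv.mul_apply, hτ' w h1 h2, hσ' w h1 h2]
  one_mem' := ⟨(IA A).one_mem, fun w _ _ => rfl⟩
  inv_mem' := by
    rintro σ ⟨hσ, hσ'⟩
    refine ⟨(IA A).inv_mem hσ, fun w h1 h2 => ?_⟩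
    have := hσ' w h1 h2
    calc σ⁻¹ w = σ⁻¹ (σ w) := by rw [this]
      _ = w := by rw [← AlgEquiv.mul_apply, inv_mul_cancel, AlgEquiv.one_apply]

theorem UPeu_le (A : ValuationSubring Qb) (p : ℕ) : UPeu A p ≤ IA A := fun _ h => h.1

/-- **`I₁`**: the elements of the inertia group at `A` which fix `μ_p` (the absolute Galois group of
`K₁ = K₀(ζ_p)`, `K₀ = Frac (A0 A)`, inside the inertia group). -/
def IOne (A : ValuationSubring Qb) (p : ℕ) : Subgroup GQ where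
  carrier := {σ | σ ∈ IA A ∧ ∀ ζ : Qb, ζ ^ p = 1 → σ ζ = ζ}
  mul_mem' := by
    rintro σ τ ⟨hσ, hσ'⟩ ⟨hτ, hτ'⟩
    refine ⟨(IA A).mul_mem hσ hτ, fun ζ h => ?_⟩
    rw [AlgEquiv.mul_apply, hτ' ζ h, hσ' ζ h]
  one_mem' := ⟨(IA A).one_mem, fun ζ _ => rfl⟩
  inv_mem' := by
    rintro σ ⟨hσ, hσ'⟩
    refine ⟨(IA A).inv_mem hσ, fun ζ h => ?_⟩
    have := hσ' ζ h
    calc σ⁻¹ ζ = σ⁻¹ (σ ζ) := by rw [this]
      _ = ζ := by rw [← AlgEquiv.mul_apply, inv_mul_cancel, AlgEquiv.one_apply]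

theorem IOne_le (A : ValuationSubring Qb) (p : ℕ) : IOne A p ≤ IA A := fun _ h => h.1

/-- `UPeu A p ≤ IOne A p`: a root of unity is a `p`-th root of the unit `1`. -/
theorem UPeu_le_IOne (A : ValuationSubring Qb) (p : ℕ) : UPeu A p ≤ IOne A p := by
  rintro σ ⟨hσ, hσ'⟩
  refine ⟨hσ, fun ζ h => hσ' ζ ?_ ?_⟩
  · rw [h]; exact (A0 A).one_mem
  · rw [h]; exact map_one _

/-- `x` is **rational over `K₁(w)`**: fixed by every element of `I₁` fixing `w`. -/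
def FixedOver (A : ValuationSubring Qb) (p : ℕ) (w : Qb) {J : Type*} [SMul GQ J] (x : J) : Prop :=
  ∀ σ ∈ IOne A p, σ w = w → σ • x = x

/-- `w` is a `p`-th root of a unit of `A0 A` -/
def IsUnitRoot (A : ValuationSubring Qb) (p : ℕ) (w : Qb) : Prop :=
  w ^ p ∈ A0 A ∧ A.valuation (w ^ p) = 1

/-- the primes at which the congruence of `ModularRepOfLevel` is tested -/
def IsTestPrime (W : WeierstrassCurve ℤ) (N p ℓ : ℕ) : Prop :=
  ℓ.Prime ∧ W.IsGoodPrimeFor ℓ ∧ ¬ ℓ ∣ N ∧ ℓ ≠ p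

/-- the congruence clause of `ModularRepOfLevel` / `IsResiduallyModularOfLevel` -/
def CongruentTo {M : ℕ} (f : CuspForm (CongruenceSubgroup.Gamma0 M) 2) (𝔪 : Ideal Zbar)
    (a : ℕ → ℤ) (S : ℕ → Prop) : Prop :=
  ∀ ℓ : ℕ, S ℓ → ∃ b : Zbar, (b : ℂ) = ModularFormClass.qCoeff f ℓ ∧ b - ((a ℓ : ℤ) : Zbar) ∈ 𝔪

/-! ### Q1: the global glue -/

/-- **Q1** (helper5): the Frey module inside `J₀(N)[p]`, Hecke-eigen with the eigenvalues of the
integral model.  (`J[𝔫] ≠ 0` from the eigen-lattice of S29/S30, Eichler–Shimura S37 on `J[𝔫]`,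
Boston–Lenstra–Ribet / Brauer–Nesbitt with the weak Chebotarev of S31lib, absolute irreducibility
of `E[p]` from irreducibility + oddness.) -/
def Q1Stmt : Prop :=
  ∀ (P : FreyPackage) (N : ℕ) [NeZero N], P.IsConductorLevel N → P.p ∣ N →
    GaloisRepIsIrreducible (K := Qb) ℚ P.freyCurve P.p →
    ∀ (f : CuspForm (CongruenceSubgroup.Gamma0 N) 2) (W : WeierstrassCurve ℤ) (𝔪 : Ideal Zbar),
      f.IsNormalizedEigenform → W.IsIntegralModelOf P.freyCurve → 𝔪.IsMaximal →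
      (P.p : Zbar) ∈ 𝔪 → CongruentTo f 𝔪 W.apOfModel (IsTestPrime W N P.p) →
      ∃ (V : AddSubgroup (JZero N)) (e : FreyTors P ≃+ V),
        V ≤ tors N (P.p : ℤ) ∧
        (∀ (σ : GQ) (x : FreyTors P), ((e (σ • x) : V) : JZero N) = σ • ((e x : V) : JZero N)) ∧
        (∀ (ℓ : ℕ) (hℓ : ℓ.Prime), IsTestPrime W N P.p ℓ → ∀ x ∈ V,
          heckeOperatorBar N ⟨ℓ, hℓ⟩ x = (W.apOfModel ℓ) • x)

/-- **non-Eisenstein** (helper5): irreducibility of `E[p]` gives a test prime with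
`a_ℓ(W) ≢ ℓ + 1 (mod p)` (else `tr = 1 + det` on all Frobenii, Chebotarev, every element of the image
has the eigenvalue `1`, so the image is reducible). -/
def NonEisStmt : Prop :=
  ∀ (P : FreyPackage) (N : ℕ) (W : WeierstrassCurve ℤ), 0 < N → W.IsIntegralModelOf P.freyCurve →
    GaloisRepIsIrreducible (K := Qb) ℚ P.freyCurve P.p →
    ∃ ℓ : ℕ, IsTestPrime W N P.p ℓ ∧ ¬ (P.p : ℤ) ∣ W.apOfModel ℓ - (ℓ + 1)

/-! ### Q3: the Frey curve at `p` -/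

/-- **Q3** (helper8), V-form: for `p ∣ abc` the Frey module at a place `A` over `p` is peu ramifié:
* every `x ∈ E[p]` is rational over `K₁(w)` for a `p`-th root `w` of a unit of `A0 A`
  (`w = s`, `sᵖ = u₀ = t (p • S)` in `Q3/NodePeu.node_fixed_peu`, which uses `hpeu` only for `s` and `μ_p`);
* `E[p]` is an extension of a non-zero `I_A`-trivial quotient by an `I_A`-stable subgroup `L`
  (`L = E₁[p]`, the kernel of reduction: `#L ≤ p` by the `μ_p`-precision lemma), and `I₁` fixes `L`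
  pointwise (the case `u₀ = 1`).
(Multiplicative reduction with `p ∣ v_p(Δ)`.) -/
def Q3Stmt : Prop :=
  ∀ (P : FreyPackage), (P.p : ℤ) ∣ P.a * P.b * P.c →
    ∀ A : ValuationSubring Qb, A.LiesOverPrime P.p →
      (∀ x : FreyTors P, ∃ w : Qb, IsUnitRoot A P.p w ∧ FixedOver A P.p w x) ∧
      ∃ L : AddSubgroup (FreyTors P), L ≠ ⊤ ∧ (∀ σ ∈ IA A, ∀ x ∈ L, σ • x ∈ L) ∧
        (∀ σ ∈ IA A, ∀ x : FreyTors P, σ • x - x ∈ L) ∧
        (∀ σ ∈ IOne A P.p, ∀ x ∈ L, σ • x = x)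

/-! ### the geometric package at `p ∥ N` -/

/-- **the geometric package** of level `N` at a place `A` over `p` (`p ≥ 5`, `p ∥ N`).

Concrete model (binding for the owners): `D` the modular nodal datum of `LSb/Unit` at `A`
(`F₁ = F₂ = FRes A (N/p)`), for `x ∈ J[p]` choose `f_x` with `div f_x = p • D_x`; then
`Ω = F₁ˣ/(kˣ F₁ˣᵖ) × F₂ˣ/(kˣ F₂ˣᵖ)` (written additively; equivalently the logarithmic differentials
`dlog`), `Ψ x = (red₁ f_x, red₂ f_x)`, `R = (nodes → ZMod p)`, `res (φ₁, φ₂) = (ord_{x₁ s} φ₁ mod p)_s`,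
`TΩ ℓ` = norm ∘ pull-back along the two degeneracy maps of level `(N/p) ℓ` in characteristic `p`,
`TR ℓ` the induced operator on the supersingular points, `Eis = 𝔽_p · (1/e_s)_s`.

v3 (after #h6-Q2a-3, #h2-77, #h5-Q1): `Ω`, `R`, `Eis` are abstract, so the instance is free to take
`Ω` = the SUBGROUP of pairs of classes with orders `≡ 0 (p)` at all non-node points (`Ψ` lands there),
`R = (nodes → ZMod p)²` with `res` on BOTH components, `Eis = 𝔽_p · res (class of X0F)` (annulus-free: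
`ord_{x₁ c} (red₁ X0F) = 12 / e_c`), `TR ℓ` = the node matrix of `T̄_ℓ` (`Q4/Abs.nodeMatrix`).
`res_hecke` and `old` are only required on the image of `Ψ` on `J[p]`; `old` only for non-Eisenstein
eigenvalues. -/
structure PsiPackage (N : ℕ) [NeZero N] (p : ℕ) (A : ValuationSubring Qb) where
  /-- target of `Ψ`: a pair of logarithmic differentials on the two components -/
  Ω : Type
  [instΩ : AddCommGroup Ω]
  /-- residues at the nodes -/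
  R : Type
  [instR : AddCommGroup R]
  /-- `Ψ` (only its values on `J[p]` matter) -/
  Ψ : JZero N → Ω
  /-- the residue map -/
  res : Ω →+ R
  /-- Hecke operators on `Ω` -/
  TΩ : Nat.Primes → (Ω →+ Ω)
  /-- Hecke operators on the residues -/
  TR : Nat.Primes → (R →+ R)
  /-- the Eisenstein line -/
  Eis : AddSubgroup R
  /-- the kernel of `Ψ` on `J[p]` (for the concrete model: `kumSub D p ⊓ J[p]`) -/
  K : AddSubgroup (JZero N)
  -- Q2a (helper6)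
  Ψ_add : ∀ x ∈ tors N (p : ℤ), ∀ y ∈ tors N (p : ℤ), Ψ (x + y) = Ψ x + Ψ y
  Ψ_inertia : ∀ σ ∈ IA A, ∀ x ∈ tors N (p : ℤ), Ψ (σ • x) = Ψ x
  Ψ_hecke : ∀ ℓ : Nat.Primes, ¬ (ℓ : ℕ) ∣ N → ∀ x ∈ tors N (p : ℤ),
    Ψ (heckeOperatorBar N ℓ x) = TΩ ℓ (Ψ x)
  res_hecke : ∀ ℓ : Nat.Primes, ¬ (ℓ : ℕ) ∣ N → ∀ x ∈ tors N (p : ℤ),
    res (TΩ ℓ (Ψ x)) = TR ℓ (res (Ψ x))
  K_le : K ≤ tors N (p : ℤ)
  mem_K : ∀ x ∈ tors N (p : ℤ), x ∈ K ↔ Ψ x = 0
  K_noTriv : NoTrivSubquotIn A K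
  p_smul_R : ∀ r : R, (p : ℤ) • r = 0
  -- Q2b = (M′), V-form (helper7, helper9, helper4): `x` rational over `K₁(w)`, `wᵖ` a unit of `A0`,
  -- and `(σ - 1) x` rational over `K₁` for every `σ ∈ I₁`
  mprime : ∀ x ∈ tors N (p : ℤ), ∀ w : Qb, IsUnitRoot A p w → FixedOver A p w x →
    (∀ σ ∈ IOne A p, ∀ τ ∈ IOne A p, τ • (σ • x - x) = σ • x - x) → res (Ψ x) ∈ Eis
  -- Q4 (helper2)
  eis : ∀ ℓ : Nat.Primes, ¬ (ℓ : ℕ) ∣ N → (ℓ : ℕ) ≠ p → ∀ r ∈ Eis, TR ℓ r = ((ℓ : ℕ) + 1 : ℤ) • r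
  -- Q5 (helper5): only for `ω = Ψ x`, `x ∈ J[p]` (so `ω` is a pair of classes with divisor `≡ 0 (p)` off the
  -- nodes, and with `res ω = 0` a pair of classes in `Pic⁰(F_i)[p]`), and only for NON-EISENSTEIN eigenvalues
  old : ∀ x ∈ tors N (p : ℤ), Ψ x ≠ 0 → res (Ψ x) = 0 → ∀ (a : ℕ → ℤ) (S : ℕ → Prop),
    (∀ ℓ, S ℓ → ℓ.Prime ∧ ¬ ℓ ∣ N ∧ ℓ ≠ p) →
    (∃ ℓ, S ℓ ∧ ¬ (p : ℤ) ∣ a ℓ - (ℓ + 1)) →
    (∀ (ℓ : ℕ) (hℓ : ℓ.Prime), S ℓ → TΩ ⟨ℓ, hℓ⟩ (Ψ x) = (a ℓ) • Ψ x) →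
    ∃ (g : CuspForm (CongruenceSubgroup.Gamma0 (N / p)) 2) (𝔪 : Ideal Zbar),
      g.IsNormalizedEigenform ∧ 𝔪.IsMaximal ∧ (p : Zbar) ∈ 𝔪 ∧ CongruentTo g 𝔪 a S

attribute [instance] PsiPackage.instΩ PsiPackage.instR

/-- **Geometry of LSq**: the package exists at every `p ≥ 5`, `p ∥ N`. -/
def GeomQStmt : Prop :=
  ∀ (N : ℕ) [NeZero N] (p : ℕ), p.Prime → 5 ≤ p → p ∣ N → ¬ p ^ 2 ∣ N →
    ∀ A : ValuationSubring Qb, A.LiesOverPrime p → Nonempty (PsiPackage N p A)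

/-! ### the assembly -/

/-- the core: inside a package, a subgroup `V ≤ J[p]` with a proper `I`-stable subgroup `L` such that
`I` acts trivially on `V / L` and `I₁` on `L`, every element of `V` rational over some `K₁(w)`, `wᵖ` a unit
of `A0`, Hecke-eigen with a non-Eisenstein eigenvalue, produces a residue-free non-zero Hecke eigenvector
of `Ω`. -/
theorem exists_eigen_of_package {N : ℕ} [NeZero N] {p : ℕ} (hp : p.Prime)
    {A : ValuationSubring Qb} (G : PsiPackage N p A) (V L : AddSubgroup (JZero N))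
    (hV : V ≤ tors N (p : ℤ)) (hLV : L ≤ V) (hLne : ¬ V ≤ L)
    (hLst : ∀ σ ∈ IA A, ∀ x ∈ L, σ • x ∈ L) (hVst : ∀ σ ∈ IA A, ∀ x ∈ V, σ • x ∈ V)
    (htriv : ∀ σ ∈ IA A, ∀ x ∈ V, σ • x - x ∈ L)
    (hL1 : ∀ σ ∈ IOne A p, ∀ x ∈ L, σ • x = x)
    (hpeu : ∀ x ∈ V, ∃ w : Qb, IsUnitRoot A p w ∧ FixedOver A p w x)
    (a : ℕ → ℤ) (S : ℕ → Prop) (hS : ∀ ℓ, S ℓ → ℓ.Prime ∧ ¬ ℓ ∣ N ∧ ℓ ≠ p)
    (heig : ∀ (ℓ : ℕ) (hℓ : ℓ.Prime), S ℓ → ∀ x ∈ V, heckeOperatorBar N ⟨ℓ, hℓ⟩ x = (a ℓ) • x)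
    (hnonE : ∃ ℓ, S ℓ ∧ ¬ (p : ℤ) ∣ a ℓ - (ℓ + 1)) :
    ∃ x ∈ tors N (p : ℤ), G.Ψ x ≠ 0 ∧ G.res (G.Ψ x) = 0 ∧
      ∀ (ℓ : ℕ) (hℓ : ℓ.Prime), S ℓ → G.TΩ ⟨ℓ, hℓ⟩ (G.Ψ x) = (a ℓ) • G.Ψ x := by
  -- `V` is not contained in the kernel of `Ψ`
  have hVK : ¬ V ≤ G.K := fun h => hLne (G.K_noTriv L V hLV h hLst hVst htriv)
  obtain ⟨x, hxV, hxK⟩ := SetLike.not_le_iff_exists.1 hVK
  have hxT : x ∈ tors N (p : ℤ) := hV hxV
  have hΨx : G.Ψ x ≠ 0 := fun h => hxK ((G.mem_K x hxT).2 h)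
  -- `Ψ` is additive on `J[p]`, hence commutes with integer multiples there
  have hΨz : ∀ (m : ℤ), ∀ y ∈ tors N (p : ℤ), G.Ψ (m • y) = m • G.Ψ y := by
    have h0 : G.Ψ 0 = 0 := by
      have := G.Ψ_add 0 (zero_mem _) 0 (zero_mem _)
      rw [add_zero] at this
      exact left_eq_add.mp this
    have hn : ∀ (n : ℕ), ∀ y ∈ tors N (p : ℤ), G.Ψ (n • y) = n • G.Ψ y := by
      intro n y hy
      induction n with
      | zero => simp [h0]
      | succ n ih =>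
        rw [succ_nsmul, succ_nsmul, G.Ψ_add _ (nsmul_mem hy n) _ hy, ih]
    have hneg : ∀ y ∈ tors N (p : ℤ), G.Ψ (-y) = - G.Ψ y := by
      intro y hy
      have := G.Ψ_add y hy (-y) (neg_mem hy)
      rw [add_neg_cancel, h0] at this
      exact (neg_eq_of_add_eq_zero_right this.symm).symm
    intro m y hy
    obtain ⟨n, rfl | rfl⟩ := m.eq_nat_or_neg
    · rw [natCast_zsmul, natCast_zsmul, hn n y hy]
    · rw [neg_smul, neg_smul, natCast_zsmul, natCast_zsmul, hneg _ (nsmul_mem hy n), hn n y hy]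
  -- the eigenvector property
  have heigΩ : ∀ (ℓ : ℕ) (hℓ : ℓ.Prime), S ℓ → G.TΩ ⟨ℓ, hℓ⟩ (G.Ψ x) = (a ℓ) • G.Ψ x := by
    intro ℓ hℓ hSℓ
    rw [← G.Ψ_hecke ⟨ℓ, hℓ⟩ (hS ℓ hSℓ).2.1 x hxT, heig ℓ hℓ hSℓ x hxV, hΨz _ x hxT]
  refine ⟨x, hxT, hΨx, ?_, heigΩ⟩
  -- the residue lies on the Eisenstein line, where `T_ℓ = ℓ + 1`
  have hres : G.res (G.Ψ x) ∈ G.Eis := by
    obtain ⟨w, hw, hfix⟩ := hpeu x hxV
    exact G.mprime x hxT w hw hfix fun σ hσ τ hτ => hL1 τ hτ _ (htriv σ hσ.1 x hxV)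
  obtain ⟨ℓ, hSℓ, hℓne⟩ := hnonE
  obtain ⟨hℓ, hℓN, hℓp⟩ := hS ℓ hSℓ
  have h1 : G.TR ⟨ℓ, hℓ⟩ (G.res (G.Ψ x)) = ((ℓ : ℕ) + 1 : ℤ) • G.res (G.Ψ x) :=
    G.eis ⟨ℓ, hℓ⟩ hℓN hℓp _ hres
  have h2 : G.TR ⟨ℓ, hℓ⟩ (G.res (G.Ψ x)) = (a ℓ) • G.res (G.Ψ x) := by
    rw [← G.res_hecke ⟨ℓ, hℓ⟩ hℓN x hxT, heigΩ ℓ hℓ hSℓ, map_zsmul]
  have h3 : (a ℓ - (ℓ + 1)) • G.res (G.Ψ x) = 0 := by
    rw [sub_smul, ← h2, h1]
    exact sub_self _
  -- `a ℓ - (ℓ + 1)` is invertible modulo `p`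
  have hcop : IsCoprime (a ℓ - (ℓ + 1)) (p : ℤ) :=
    ((Nat.prime_iff_prime_int.mp hp).coprime_iff_not_dvd.2 hℓne).symm
  obtain ⟨u, v, huv⟩ := hcop
  have : G.res (G.Ψ x) = (u * (a ℓ - (ℓ + 1)) + v * (p : ℤ)) • G.res (G.Ψ x) := by
    rw [huv, one_smul]
  rw [this, add_smul, mul_smul, mul_smul, h3, G.p_smul_R, smul_zero, smul_zero, add_zero]

/-- **S44 from the block statements.** -/
theorem s44_of_stmts (h1 : Q1Stmt) (hE : NonEisStmt) (h3 : Q3Stmt) (hG : GeomQStmt)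
    (P : FreyPackage) {N : ℕ} (hcond : P.IsConductorLevel N) (hpN : P.p ∣ N)
    (hirr : GaloisRepIsIrreducible (K := AlgebraicClosure ℚ) ℚ P.freyCurve P.p)
    (hmod : P.ModularRepOfLevel N) :
    ∃ M : ℕ, M ∣ N ∧ ¬ P.p ∣ M ∧ P.ModularRepOfLevel M := by
  haveI : NeZero N := ⟨hcond.pos.ne'⟩
  have hp : P.p.Prime := P.pp
  have hp2N : ¬ P.p ^ 2 ∣ N := hcond.sq_not_dvd hp
  obtain ⟨f, W, 𝔪, hf, hW, h𝔪, hp𝔪, hcong⟩ := hmod
  have hcong' : CongruentTo f 𝔪 W.apOfModel (IsTestPrime W N P.p) :=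
    fun ℓ hℓ => hcong ℓ hℓ.1 hℓ.2.1 hℓ.2.2.1 hℓ.2.2.2
  -- Q1
  obtain ⟨V, e, hVt, he, hVeig⟩ := h1 P N hcond hpN hirr f W 𝔪 hf hW h𝔪 hp𝔪 hcong'
  -- a place over `p`, Q3 and the package
  obtain ⟨A, hA⟩ := Fermat.Agent.S13lib.exists_liesOverPrime hp
  obtain ⟨hpeuE, LE, hLEtop, hLEst, hLEtriv, hLE1⟩ := h3 P (hcond.p_dvd_abc hpN) A hA
  obtain ⟨G⟩ := hG N P.p hp P.hp5 hpN hp2N A hA
  -- transport of the local structure to `V`
  have hsmulV : ∀ (σ : GQ) (x : JZero N), x ∈ V → σ • x ∈ V := by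
    intro σ x hx
    have := he σ (e.symm ⟨x, hx⟩)
    rw [AddEquiv.apply_symm_apply] at this
    rw [← this]
    exact (e _).2
  let L : AddSubgroup (JZero N) := (LE.map e.toAddMonoidHom).map V.subtype
  have hmemL : ∀ y : FreyTors P, ((e y : V) : JZero N) ∈ L ↔ y ∈ LE := by
    intro y
    constructor
    · rintro ⟨v, ⟨y', hy', rfl⟩, hv⟩
      have : e y' = e y := Subtype.ext hv
      rwa [← e.injective this]
    · intro hy
      exact ⟨e y, ⟨y, hy, rfl⟩, rfl⟩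
  have hLV : L ≤ V := by
    rintro _ ⟨v, -, rfl⟩
    exact v.2
  have hLne : ¬ V ≤ L := by
    intro h
    apply hLEtop
    rw [eq_top_iff]
    intro y _
    exact (hmemL y).1 (h (e y).2)
  have hLst : ∀ σ ∈ IA A, ∀ x ∈ L, σ • x ∈ L := by
    rintro σ hσ _ ⟨v, ⟨y, hy, rfl⟩, rfl⟩
    show σ • ((e y : V) : JZero N) ∈ L
    rw [← he σ y]
    exact (hmemL _).2 (hLEst σ hσ y hy)
  have htriv : ∀ σ ∈ IA A, ∀ x ∈ V, σ • x - x ∈ L := by
    intro σ hσ x hx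
    obtain ⟨y, rfl⟩ : ∃ y, ((e y : V) : JZero N) = x := ⟨e.symm ⟨x, hx⟩, by simp⟩
    rw [← he σ y]
    have : ((e (σ • y) : V) : JZero N) - ((e y : V) : JZero N) = ((e (σ • y - y) : V) : JZero N) := by
      rw [map_sub]
      rfl
    rw [this]
    exact (hmemL _).2 (hLEtriv σ hσ y)
  have hL1 : ∀ σ ∈ IOne A P.p, ∀ x ∈ L, σ • x = x := by
    rintro σ hσ _ ⟨v, ⟨y, hy, rfl⟩, rfl⟩
    show σ • ((e y : V) : JZero N) = ((e y : V) : JZero N)
    rw [← he σ y, hLE1 σ hσ y hy]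
  have hpeu : ∀ x ∈ V, ∃ w : Qb, IsUnitRoot A P.p w ∧ FixedOver A P.p w x := by
    intro x hx
    obtain ⟨y, rfl⟩ : ∃ y, ((e y : V) : JZero N) = x := ⟨e.symm ⟨x, hx⟩, by simp⟩
    obtain ⟨w, hw, hfix⟩ := hpeuE y
    refine ⟨w, hw, fun σ hσ hσw => ?_⟩
    rw [← he σ y, hfix σ hσ hσw]
  -- the eigenvector and the old form
  have hnonE := hE P N W hcond.pos hW hirr
  obtain ⟨x, hxT, hω0, hωres, hωeig⟩ := exists_eigen_of_package hp G V L hVt hLV hLne hLst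
    (fun σ _ x hx => hsmulV σ x hx) htriv hL1 hpeu W.apOfModel (IsTestPrime W N P.p)
    (fun ℓ hℓ => ⟨hℓ.1, hℓ.2.2.1, hℓ.2.2.2⟩)
    (fun ℓ hℓ hS x hx => hVeig ℓ hℓ hS x hx) hnonE
  obtain ⟨g, 𝔪', hg, h𝔪', hp𝔪', hcongg⟩ := G.old x hxT hω0 hωres W.apOfModel (IsTestPrime W N P.p)
    (fun ℓ hℓ => ⟨hℓ.1, hℓ.2.2.1, hℓ.2.2.2⟩) hnonE hωeig
  -- the level `N / p`
  refine ⟨N / P.p, Nat.div_dvd_of_dvd hpN, ?_, g, W, 𝔪', hg, hW, h𝔪', hp𝔪', ?_⟩
  · intro h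
    apply hp2N
    obtain ⟨c, hc⟩ := h
    rw [pow_two]
    exact ⟨c, by rw [mul_assoc, ← hc, Nat.mul_div_cancel' hpN]⟩
  · intro ℓ hℓ hgood hℓM hℓp
    refine hcongg ℓ ⟨hℓ, hgood, fun hℓN => ?_, hℓp⟩
    -- `ℓ ∣ N`, `ℓ ≠ p` prime ⟹ `ℓ ∣ N / p`
    have hN : N = P.p * (N / P.p) := (Nat.mul_div_cancel' hpN).symm
    rw [hN] at hℓN
    rcases (Nat.Prime.dvd_mul hℓ).1 hℓN with h | h
    · exact hℓp ((Nat.prime_dvd_prime_iff_eq hℓ hp).1 h)
    · exact hℓM h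

end Fermat.Agent.S44lib

end
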