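/-
S44lib / Geom  (helper2)  — Project LSq: THE GEOMETRIC STATEMENT `GeomQStmt`, conditional form.

`GeomQStmt` (the existence of the geometric package `PsiPackage N p A` at every level `N` with
`p ∥ N`, `p ≥ 5`, `A` over `p`) from the ONE open statement of block Q5:

  `geomQStmt_of_lift : (∀ A M p hA hpM, Q5.LiftStmt A M hA hpM) → GeomQStmt`.

Assembly (`Kap.geomQStmt_of_modInputs`, helper6) over the concrete nodal package
`I = Kap.modNModInst hqM hA h5` at level `M q`:
* the Hecke inputs `Q4.modHeckeInputs hqM hA h5`                               (helper2, `Q4/Inst`);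
* (M′): `Lvl.mprimeStmt_mod hqM hA h5`                                         (helper9, `Lvl/MPrimeClosed`;
  helper1 `AnnInst/Coord`, helper4 `H4/ModCoordZ`, helper7 `M/ModInst`, helper8 `F/`);
* Q5: `Q5.oldStmt_mod hqM hA h5 (Q5.formsStmt_of_lift A M hA hqM hL)`          (helper2 `Q5/Old`,
  helper3 `Q5/Iface`, `Q5/Forms`, helper8 `Q5/DimInst`).
-/
import Fermat.Agent.S44lib.Kap.Package
import Fermat.Agent.S44lib.Q4.Inst
import Fermat.Agent.S44lib.Q5.Old
import Fermat.Agent.S44lib.Q5.DimInst
import Fermat.Agent.S44lib.Lvl.MPrimeClosed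

set_option autoImplicit false
set_option linter.unusedSectionVars false
set_option linter.unusedVariables false

noncomputable section

namespace Fermat.Agent.S44lib

open Fermat.Agent.S18lib

local notation "Qb" => AlgebraicClosure ℚ

/-- **`GeomQStmt` from `Q5.LiftStmt`** (every integral cusp form of level `M` is, after division by
`θ j̄`, a regular differential of the reduction of `X₀(M)` at a prime `p ∤ M`). -/
theorem geomQStmt_of_lift
    (hL : ∀ (A : ValuationSubring Qb) (M : ℕ) [NeZero M] {p : ℕ} [Fact p.Prime]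
      (hA : A.LiesOverPrime p) (hpM : ¬ p ∣ M), Q5.LiftStmt A M hA hpM) : GeomQStmt :=
  Kap.geomQStmt_of_modInputs fun M q _ _ _ A hqM hA h5 =>
    ⟨Q4.modHeckeInputs hqM hA h5, Lvl.mprimeStmt_mod hqM hA h5,
      Q5.oldStmt_mod hqM hA h5 (Q5.formsStmt_of_lift A M hA hqM (hL A M hA hqM))⟩

end Fermat.Agent.S44lib
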